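/-
GR / Adic layer (S30), package [AdicRep], part Base:
the generic fibre `V = E ⊗[O] T` of a torsion free `O[G]`-module `T` (`E` the fraction field of `O`).
-/
import Mathlib
import Fermat.Agent.GR.Adic.RelT

set_option autoImplicit false
set_option linter.unusedSectionVars false

open IsLocalRing Polynomial TensorProduct

namespace Fermat.Agent.GR.Adic

section Base

variable {O G T : Type*} [CommRing O] [Group G] [AddCommGroup T] [Module O T]
variable (E : Type*) [Field E] [Algebra O E]

/-- the base change of a representation. -/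
noncomputable def rhoE (ρ : G →* Module.End O T) : G →* Module.End E (E ⊗[O] T) where
  toFun g := (ρ g).baseChange E
  map_one' := by rw [map_one]; exact LinearMap.baseChange_one _ _
  map_mul' g h := by rw [map_mul]; exact LinearMap.baseChange_mul _ _

@[simp] theorem rhoE_tmul (ρ : G →* Module.End O T) (g : G) (e : E) (x : T) :
    rhoE E ρ g (e ⊗ₜ[O] x) = e ⊗ₜ[O] ρ g x := rfl

/-- the units-valued character over `E`. -/
noncomputable def epsE (ε : G →* Oˣ) : G →* Eˣ := (Units.map (algebraMap O E).toMonoidHom).comp ε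

@[simp] theorem epsE_coe (ε : G →* Oˣ) (g : G) : (epsE E ε g : E) = algebraMap O E (ε g : O) := rfl

theorem algebraMap_smul_tmul (s : O) (e : E) (x : T) :
    algebraMap O E s • (e ⊗ₜ[O] x) = e ⊗ₜ[O] (s • x) := by
  rw [TensorProduct.smul_tmul', smul_eq_mul, TensorProduct.tmul_smul, ← Algebra.smul_def,
    TensorProduct.smul_tmul']

theorem algebraMap_smul_one_tmul (s : O) (x : T) :
    algebraMap O E s • ((1 : E) ⊗ₜ[O] x) = (1 : E) ⊗ₜ[O] (s • x) :=
  algebraMap_smul_tmul E s 1 x

theorem rhoE_rel (ρ : G →* Module.End O T) (ε : G →* Oˣ) (t : G → O)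
    (hrel : ∀ g, ρ g * ρ g - t g • ρ g + (ε g : O) • 1 = 0) (g : G) :
    rhoE E ρ g * rhoE E ρ g - (algebraMap O E (t g)) • rhoE E ρ g + (epsE E ε g : E) • 1 = 0 := by
  apply TensorProduct.AlgebraTensorModule.curry_injective
  ext x
  have h := congrArg (fun f : Module.End O T => (1 : E) ⊗ₜ[O] f x) (hrel g)
  simp only [LinearMap.add_apply, LinearMap.sub_apply, LinearMap.smul_apply, Module.End.mul_apply,
    Module.End.one_apply, LinearMap.zero_apply, TensorProduct.tmul_add, TensorProduct.tmul_sub,
    TensorProduct.tmul_zero] at h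
  simp only [TensorProduct.AlgebraTensorModule.curry_apply, TensorProduct.curry_apply,
    LinearMap.restrictScalars_apply, LinearMap.add_apply, LinearMap.sub_apply,
    LinearMap.smul_apply, Module.End.mul_apply, Module.End.one_apply, LinearMap.zero_apply,
    rhoE_tmul, epsE_coe, algebraMap_smul_one_tmul]
  exact h

variable [IsDomain O] [IsFractionRing O E]

/-- `T → E ⊗ T` is injective for torsion free `T`. -/
theorem one_tmul_injective [NoZeroSMulDivisors O T] :
    Function.Injective (fun x : T => (1 : E) ⊗ₜ[O] x) := by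
  intro x y hxy
  have h : TensorProduct.mk O E T 1 x = TensorProduct.mk O E T 1 y := hxy
  obtain ⟨s, hs⟩ := (IsLocalizedModule.eq_iff_exists (nonZeroDivisors O)
    (TensorProduct.mk O E T 1)).1 h
  exact smul_right_injective T (nonZeroDivisors.coe_ne_zero s) hs

theorem one_tmul_eq_zero_iff [NoZeroSMulDivisors O T] (x : T) :
    (1 : E) ⊗ₜ[O] x = 0 ↔ x = 0 := by
  constructor
  · intro h
    apply one_tmul_injective (O := O) E
    simpa using h
  · rintro rfl; simp

/-- every element of `E ⊗ T` has a nonzero multiple in `T`. -/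
theorem exists_smul_eq_one_tmul (v : E ⊗[O] T) :
    ∃ (s : O) (x : T), s ≠ 0 ∧ algebraMap O E s • v = (1 : E) ⊗ₜ[O] x := by
  obtain ⟨⟨x, s⟩, hs⟩ := IsLocalizedModule.surj (nonZeroDivisors O) (TensorProduct.mk O E T 1) v
  refine ⟨s, x, nonZeroDivisors.coe_ne_zero s, ?_⟩
  rw [algebraMap_smul]
  exact hs

theorem nontrivial_tensor [NoZeroSMulDivisors O T] [Nontrivial T] : Nontrivial (E ⊗[O] T) := by
  obtain ⟨x, hx⟩ := exists_ne (0 : T)
  exact ⟨⟨(1 : E) ⊗ₜ[O] x, 0, fun h => hx ((one_tmul_eq_zero_iff E x).1 h)⟩⟩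

end Base

end Fermat.Agent.GR.Adic
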