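/-
GR / Adic layer (S30), package [AdicRep], part Line:
* `matRep`: from a `2 × 2` matrix representation to `G →* Module.End O (Fin 2 → O)` (with the three
  translation lemmas needed for the conclusion of `adicRep`);
* primitive vectors in separated torsion free modules over a DVR;
* `adicRep_line`: the case of `adicRep` in which the generic fibre contains a stable line.
-/
import Mathlib
import Fermat.Agent.GR.Adic.AdicRep.Base

set_option autoImplicit false
set_option linter.unusedSectionVars false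

open IsLocalRing Polynomial TensorProduct

namespace Fermat.Agent.GR.Adic

/-! ## matrix representations -/

section MatRep

variable {O G : Type*} [CommRing O] [Group G]

/-- the representation on `Fin 2 → O` attached to a matrix representation. -/
noncomputable def matRep (r : G →* Matrix (Fin 2) (Fin 2) O) : G →* Module.End O (Fin 2 → O) where
  toFun g := Matrix.toLin' (r g)
  map_one' := by rw [map_one, Matrix.toLin'_one]; rfl
  map_mul' g h := by rw [map_mul, Matrix.toLin'_mul]; rfl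

theorem matRep_apply (r : G →* Matrix (Fin 2) (Fin 2) O) (g : G) :
    matRep r g = Matrix.toLin' (r g) := rfl

theorem matRep_charpoly [Nontrivial O] (r : G →* Matrix (Fin 2) (Fin 2) O) (g : G) {t e : O}
    (htr : (r g).trace = t) (hdet : (r g).det = e) :
    LinearMap.charpoly (matRep r g) = X ^ 2 - C t * X + C e := by
  rw [matRep_apply, Matrix.charpoly_toLin', Matrix.charpoly_fin_two, htr, hdet]

theorem matRep_eq_one (r : G →* Matrix (Fin 2) (Fin 2) O) {g : G} (h : r g = 1) :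
    matRep r g = 1 := by
  rw [matRep_apply, h, Matrix.toLin'_one]; rfl

theorem mem_smul_top_of_forall (I : Ideal O) (w : Fin 2 → O) (hw : ∀ i, w i ∈ I) :
    w ∈ I • (⊤ : Submodule O (Fin 2 → O)) := by
  have : w = w 0 • (Pi.single 0 1 : Fin 2 → O) + w 1 • (Pi.single 1 1 : Fin 2 → O) := by
    funext i
    fin_cases i <;> simp
  rw [this]
  exact Submodule.add_mem _ (Submodule.smul_mem_smul (hw 0) trivial)
    (Submodule.smul_mem_smul (hw 1) trivial)

theorem matRep_sub_mem (r : G →* Matrix (Fin 2) (Fin 2) O) {g : G} (I : Ideal O)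
    (h : ∀ i j, (r g - 1) i j ∈ I) (v : Fin 2 → O) :
    matRep r g v - v ∈ I • (⊤ : Submodule O (Fin 2 → O)) := by
  apply mem_smul_top_of_forall
  intro i
  have : (matRep r g v - v) i = ((r g - 1).mulVec v) i := by
    rw [matRep_apply, Matrix.toLin'_apply, Matrix.sub_mulVec, Matrix.one_mulVec]
  rw [this]
  simp only [Matrix.mulVec, dotProduct]
  exact Ideal.sum_mem _ fun k _ => Ideal.mul_mem_right _ _ (h i k)

end MatRep

/-! ## primitive vectors -/

section Prim

variable {O T : Type*} [CommRing O] [IsDomain O] [IsDiscreteValuationRing O]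
  [AddCommGroup T] [Module O T]

/-- in a separated module every nonzero vector is a power of the uniformiser times a primitive
vector. -/
theorem exists_primitive
    (hsep : ∀ x : T, (∀ n : ℕ, x ∈ (maximalIdeal O ^ n) • (⊤ : Submodule O T)) → x = 0)
    {ϖ : O} (hϖ : Irreducible ϖ) (x : T) (hx : x ≠ 0) :
    ∃ (k : ℕ) (x₀ : T), x = ϖ ^ k • x₀ ∧ x₀ ∉ (maximalIdeal O ^ 1) • (⊤ : Submodule O T) := by
  by_contra hcon
  push Not at hcon
  apply hx
  apply hsep
  intro n
  induction n with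
  | zero => simp
  | succ n ih =>
    obtain ⟨z, hz⟩ := (relT_mem_iff hϖ n x).1 ih
    obtain ⟨z', hz'⟩ := (relT_mem_iff hϖ 1 z).1 (hcon n z hz.symm)
    rw [relT_mem_iff hϖ]
    exact ⟨z', by rw [pow_succ, mul_smul, ← pow_one ϖ, ← pow_mul, one_mul, hz', hz]⟩

/-- a rational eigenvalue on a primitive vector is integral. -/
theorem eigen_integral [NoZeroSMulDivisors O T] {x₀ : T}
    (hx₀ : x₀ ∉ (maximalIdeal O ^ 1) • (⊤ : Submodule O T)) (y : T) {d n : O} (hd : d ≠ 0)
    (h : d • y = n • x₀) : ∃ ψ : O, y = ψ • x₀ := by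
  rcases ValuationRing.dvd_total d n with ⟨e, rfl⟩ | ⟨e, rfl⟩
  · refine ⟨e, smul_right_injective T hd ?_⟩
    simpa [mul_smul] using h
  · have hn : n ≠ 0 := left_ne_zero_of_mul hd
    have h1 : e • y = x₀ := smul_right_injective T hn (by simpa [mul_smul] using h)
    by_cases he : IsUnit e
    · obtain ⟨u, rfl⟩ := he
      refine ⟨(↑u⁻¹ : O), ?_⟩
      rw [← h1, smul_smul, Units.inv_mul, one_smul]
    · exfalso
      apply hx₀
      rw [← h1, pow_one]
      exact Submodule.smul_mem_smul ((mem_maximalIdeal e).2 he) trivial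

end Prim

/-! ## the line case -/

theorem adicRep_line {O G T : Type*} [CommRing O] [IsDomain O] [IsDiscreteValuationRing O]
    [Group G] [AddCommGroup T] [Module O T] [NoZeroSMulDivisors O T]
    (hsep : ∀ x : T, (∀ n : ℕ, x ∈ (maximalIdeal O ^ n) • (⊤ : Submodule O T)) → x = 0)
    (ρ : G →* Module.End O T) (ε : G →* Oˣ) (t : G → O)
    (hrel : ∀ g, ρ g * ρ g - t g • ρ g + (ε g : O) • 1 = 0)
    (𝒰 : Set (Set G)) (h𝒰 : ∀ U ∈ 𝒰, ∀ V ∈ 𝒰, ∃ X ∈ 𝒰, X ⊆ U ∩ V)
    (hsm : ∀ (x : T) (n : ℕ), ∃ U ∈ 𝒰, ∀ g ∈ U,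
      ρ g x - x ∈ (maximalIdeal O ^ n) • (⊤ : Submodule O T))
    (hε : ∀ n : ℕ, ∃ U ∈ 𝒰, ∀ g ∈ U, (ε g : O) - 1 ∈ maximalIdeal O ^ n)
    (E : Type*) [Field E] [Algebra O E] [IsFractionRing O E]
    (hline : ∃ v : E ⊗[O] T, v ≠ 0 ∧ ∀ g, ∃ a : E, rhoE E ρ g v = a • v) :
    ∃ ρ' : G →* Module.End O (Fin 2 → O),
      (∀ g, LinearMap.charpoly (ρ' g) = X ^ 2 - C (t g) * X + C (ε g : O)) ∧
      (∀ τ, ε τ = 1 → (∀ g, t (g * τ) = t g) → ρ' τ = 1) ∧
      (∀ n : ℕ, ∃ U ∈ 𝒰, ∀ g ∈ U, ∀ v : Fin 2 → O,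
        ρ' g v - v ∈ (maximalIdeal O ^ n) • (⊤ : Submodule O (Fin 2 → O))) := by
  classical
  obtain ⟨ϖ, hϖ⟩ := IsDiscreteValuationRing.exists_irreducible O
  obtain ⟨v, hv, h⟩ := hline
  obtain ⟨s, x, hs, hsx⟩ := exists_smul_eq_one_tmul E v
  have hsE : algebraMap O E s ≠ 0 := by
    rwa [Ne, map_eq_zero_iff _ (IsFractionRing.injective O E)]
  have hx : x ≠ 0 := by
    rintro rfl
    rw [TensorProduct.tmul_zero] at hsx
    exact hv ((smul_eq_zero.1 hsx).resolve_left hsE)
  obtain ⟨k, x₀, hxx₀, hx₀⟩ := exists_primitive hsep hϖ x hx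
  have hx₀0 : x₀ ≠ 0 := by
    rintro rfl
    exact hx₀ (Submodule.zero_mem _)
  -- `x₀` is an eigenvector
  have heig : ∀ g, ∃ ψ : O, ρ g x₀ = ψ • x₀ := by
    intro g
    obtain ⟨a, ha⟩ := h g
    obtain ⟨n, d, hd, rfl⟩ := IsFractionRing.div_surjective (A := O) a
    have hd0 : d ≠ 0 := nonZeroDivisors.ne_zero hd
    have hdE : algebraMap O E d ≠ 0 := by
      rwa [Ne, map_eq_zero_iff _ (IsFractionRing.injective O E)]
    have h1 : rhoE E ρ g ((1 : E) ⊗ₜ[O] x) =
        (algebraMap O E n / algebraMap O E d) • ((1 : E) ⊗ₜ[O] x) := by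
      rw [← hsx, map_smul, ha, smul_comm]
    have h2 : (1 : E) ⊗ₜ[O] (d • ρ g x) = (1 : E) ⊗ₜ[O] (n • x) := by
      rw [← algebraMap_smul_one_tmul, ← algebraMap_smul_one_tmul, ← rhoE_tmul, h1, smul_smul,
        mul_div_cancel₀ _ hdE]
    have h3 : d • ρ g x = n • x := one_tmul_injective (O := O) E h2
    rw [hxx₀, map_smul, smul_comm, smul_comm n] at h3
    exact eigen_integral hx₀ _ hd0 (smul_right_injective T (pow_ne_zero k hϖ.ne_zero) h3)
  choose ψ₀ hψ₀ using heig
  let ψ : G →* O :=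
    { toFun := ψ₀
      map_one' := by
        have h1 := hψ₀ 1
        rw [map_one, Module.End.one_apply] at h1
        apply smul_left_injective O hx₀0
        simpa using h1.symm
      map_mul' := fun g g' => by
        have h1 := hψ₀ (g * g')
        rw [map_mul, Module.End.mul_apply, hψ₀ g', map_smul, hψ₀ g, smul_smul] at h1
        apply smul_left_injective O hx₀0
        simpa [mul_comm] using h1.symm }
  have hψ : ∀ g, ρ g x₀ = ψ g • x₀ := hψ₀
  let ψu : G →* Oˣ := ψ.toHomUnits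
  have hψu : ∀ g, ((ψu g : Oˣ) : O) = ψ g := fun g => rfl
  have hquad : ∀ g, ψ g * ψ g - t g * ψ g + (ε g : O) = 0 := by
    intro g
    have h1 := congrArg (fun f : Module.End O T => f x₀) (hrel g)
    simp only [LinearMap.add_apply, LinearMap.sub_apply, LinearMap.smul_apply,
      Module.End.mul_apply, Module.End.one_apply, LinearMap.zero_apply, hψ, map_smul,
      smul_smul] at h1
    rw [← sub_smul, ← add_smul] at h1
    exact (smul_eq_zero.1 h1).resolve_right hx₀0
  let d2 : G →* Oˣ := ε * ψu⁻¹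
  let r2 : G →* Matrix (Fin 2) (Fin 2) O :=
    { toFun := fun g => Matrix.diagonal ![ψ g, (d2 g : O)]
      map_one' := by
        rw [map_one, map_one]
        ext a b
        fin_cases a <;> fin_cases b <;> simp
      map_mul' := fun g g' => by
        rw [map_mul, map_mul, Matrix.diagonal_mul_diagonal]
        congr 1
        funext a
        fin_cases a <;> simp }
  have hd2 : ∀ g, (d2 g : O) * ψ g = (ε g : O) := by
    intro g
    show ((ε g * (ψu g)⁻¹ : Oˣ) : O) * ψ g = _
    rw [← hψu g, Units.val_mul, mul_assoc, Units.inv_mul, mul_one]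
  refine ⟨matRep r2, fun g => ?_, fun τ hτ hτt => ?_, fun n => ?_⟩
  · apply matRep_charpoly
    · show (Matrix.diagonal ![ψ g, (d2 g : O)]).trace = _
      rw [Matrix.trace_fin_two]
      simp only [Matrix.diagonal_apply_eq, Matrix.cons_val_zero, Matrix.cons_val_one]
      have hu : (((ψu g)⁻¹ : Oˣ) : O) * ψ g = 1 := by rw [← hψu g]; exact Units.inv_mul _
      have h1 := hquad g
      have h2 := hd2 g
      linear_combination (((ψu g)⁻¹ : Oˣ) : O) * h1 + (((ψu g)⁻¹ : Oˣ) : O) * h2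
        - (ψ g - t g + (d2 g : O)) * hu
    · show (Matrix.diagonal ![ψ g, (d2 g : O)]).det = _
      rw [Matrix.det_diagonal, Fin.prod_univ_two]
      simp only [Matrix.cons_val_zero, Matrix.cons_val_one]
      rw [mul_comm]; exact hd2 g
  · apply matRep_eq_one
    have ht1 : t 1 = 2 := by
      have h1 := hquad 1
      rw [map_one, map_one, Units.val_one] at h1
      linear_combination -h1
    have htτ : t τ = 2 := by rw [← ht1, ← hτt 1, one_mul]
    have hψ1 : ψ τ = 1 := by
      have h1 := hquad τ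
      rw [htτ, hτ, Units.val_one] at h1
      have h2 : (ψ τ - 1) ^ 2 = 0 := by linear_combination h1
      exact sub_eq_zero.1 (pow_eq_zero_iff (two_ne_zero)|>.1 h2)
    have hd1 : (d2 τ : O) = 1 := by
      have := hd2 τ
      rw [hψ1, mul_one, hτ] at this
      simpa using this
    show Matrix.diagonal ![ψ τ, (d2 τ : O)] = 1
    rw [hψ1, hd1]
    ext a b
    fin_cases a <;> fin_cases b <;> simp
  · obtain ⟨U₁, hU₁, h₁⟩ := hsm x₀ (n + 1)
    obtain ⟨U₂, hU₂, h₂⟩ := hε n
    obtain ⟨U, hU, hUU⟩ := h𝒰 U₁ hU₁ U₂ hU₂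
    refine ⟨U, hU, fun σ hσ => matRep_sub_mem r2 _ fun a b => ?_⟩
    have hψ1 : ψ σ - 1 ∈ maximalIdeal O ^ n := by
      apply relT_key hx₀
      rw [sub_smul, one_smul, ← hψ]
      exact h₁ σ (hUU hσ).1
    have hd1 : (d2 σ : O) - 1 ∈ maximalIdeal O ^ n := by
      have : (d2 σ : O) - 1 = (((ψu σ)⁻¹ : Oˣ) : O) * (((ε σ : O) - 1) - (ψ σ - 1)) := by
        rw [← hd2 σ, ← hψu σ]
        have hu : (((ψu σ)⁻¹ : Oˣ) : O) * ((ψu σ : Oˣ) : O) = 1 := Units.inv_mul _
        linear_combination (1 - (d2 σ : O)) * hu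
      rw [this]
      exact Ideal.mul_mem_left _ _ (Ideal.sub_mem _ (h₂ σ (hUU hσ).2) hψ1)
    show (Matrix.diagonal ![ψ σ, (d2 σ : O)] - 1) a b ∈ _
    fin_cases a <;> fin_cases b <;> simp [hψ1, hd1]

end Fermat.Agent.GR.Adic
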